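import Fermat.Agent.HeckeModule.Away
import Fermat.Agent.HeckeModule.Finite
import Fermat.Agent.LevelRaising.LinAlg
import Mathlib.LinearAlgebra.Charpoly.Basic
import Mathlib.RingTheory.DiscreteValuationRing.Basic

/-!
# Eigen classes modulo `ℓ` from a class in characteristic zero

A class over a torsion free module whose annihilator in the Hecke polynomials lies in the kernel of
a system of values gives an eigen class over the residue field with these values, killed at the
elements at which all its Hecke translates are killed.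
-/

set_option autoImplicit false

noncomputable section

open CongruenceSubgroup MvPolynomial
open scoped MatrixGroups

namespace Fermat.Agent.Row48.Periods

open HeckeJ0 HeckeModule

section Eval

variable {N : ℕ} {O : Type} [CommRing O] {V : Type} [AddCommGroup V] [Module O V]
  {W : Type} [AddCommGroup W] [Module O W]
  {ρ : Representation O (ZMod N)ˣ V} {σ : Representation O (ZMod N)ˣ W}

/-- The value of a class at an element acting trivially. -/
def evalAt (ρ : Representation O (ZMod N)ˣ V) (γ : Gamma0 N) (h : ρ (dUnit N γ) = 1) :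
    Coh1 ρ →ₗ[O] V :=
  (coboundaries (gammaRep ρ) {negOne N}).liftQ
    ((LinearMap.proj γ).comp (Submodule.subtype _)) fun c hc => by
      obtain ⟨a, ha⟩ := hc
      rw [LinearMap.mem_ker]
      show c.1 γ = 0
      rw [← show cobound (gammaRep ρ) a = c.1 from ha, cobound_apply, gammaRep_apply, h,
        Module.End.one_apply, sub_self]

@[simp] theorem evalAt_toCoh (γ : Gamma0 N) (h : ρ (dUnit N γ) = 1) (c : Cocycle ρ) :
    evalAt ρ γ h (toCoh ρ c) = c.1 γ := rfl

theorem evalAt_cohMap (f : V →ₗ[O] W) (hf : IsIntertwining ρ σ f) (γ : Gamma0 N)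
    (h : ρ (dUnit N γ) = 1) (h' : σ (dUnit N γ) = 1) (u : Coh1 ρ) :
    evalAt σ γ h' (cohMap f hf u) = f (evalAt ρ γ h u) := by
  obtain ⟨c, rfl⟩ := toCoh_surjective ρ u
  rfl

theorem scalarRep_eq_one {χ : (ZMod N)ˣ →* O} {u : (ZMod N)ˣ} (h : χ u = 1) :
    scalarRep χ V u = 1 :=
  LinearMap.ext fun a => by rw [scalarRep_apply, h, one_smul]; rfl

end Eval

section Semi

variable {N : ℕ} {O : Type} [CommRing O] {k : Type} [CommRing k] (red : O →+* k)
  (χ : (ZMod N)ˣ →* O) (χ' : (ZMod N)ˣ →* k) (hχ : ∀ u, red (χ u) = χ' u)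

/-- Reduction of cocycles. -/
def redCocycle : Cocycle (scalarRep χ O) →+ Cocycle (scalarRep χ' k) where
  toFun c := ⟨fun γ => red (c.1 γ), fun g h => by
      show red (c.1 (g * h)) = red (c.1 g) + χ' (dUnit N g) • red (c.1 h)
      rw [c.2.1, gammaRep_apply, scalarRep_apply, smul_eq_mul, map_add, map_mul, hχ, smul_eq_mul],
    fun x hx => by show red (c.1 x) = 0; rw [c.2.2 x hx, map_zero]⟩
  map_zero' := Subtype.ext (funext fun γ => map_zero red)
  map_add' c d := Subtype.ext (funext fun γ => map_add red _ _)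

/-- Reduction of classes. -/
def redCoh : Coh1 (scalarRep χ O) →+ Coh1 (scalarRep χ' k) :=
  QuotientAddGroup.lift (coboundaries (gammaRep (scalarRep χ O)) {negOne N}).toAddSubgroup
    ((toCoh (scalarRep χ' k)).toAddMonoidHom.comp (redCocycle red χ χ' hχ)) fun c hc => by
      obtain ⟨a, ha⟩ := hc
      rw [AddMonoidHom.mem_ker]
      refine (toCoh_eq_zero_iff _).mpr ⟨red a, fun γ => ?_⟩
      show red (c.1 γ) = χ' (dUnit N γ) • red a - red a
      rw [← show cobound (gammaRep (scalarRep χ O)) a = c.1 from ha, cobound_apply, gammaRep_apply,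
        scalarRep_apply, smul_eq_mul, map_sub, map_mul, hχ, smul_eq_mul]

theorem redCoh_toCoh (c : Cocycle (scalarRep χ O)) :
    redCoh red χ χ' hχ (toCoh _ c) = toCoh _ (redCocycle red χ χ' hχ c) := rfl

theorem redCoh_smul (r : O) (u : Coh1 (scalarRep χ O)) :
    redCoh red χ χ' hχ (r • u) = red r • redCoh red χ χ' hχ u := by
  obtain ⟨c, rfl⟩ := toCoh_surjective _ u
  rw [← map_smul, redCoh_toCoh, redCoh_toCoh, ← map_smul]
  exact congrArg _ (Subtype.ext (funext fun γ => map_mul red r (c.1 γ)))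

theorem redCoh_heckeOp (ℓ : ℕ) [Fact ℓ.Prime] (u : Coh1 (scalarRep χ O)) :
    redCoh red χ χ' hχ (heckeOp (scalarRep χ O) ℓ u) =
      heckeOp (scalarRep χ' k) ℓ (redCoh red χ χ' hχ u) := by
  have : NeZero ℓ := ⟨(Fact.out : ℓ.Prime).ne_zero⟩
  obtain ⟨c, rfl⟩ := toCoh_surjective _ u
  rw [heckeOp_toCoh, redCoh_toCoh, redCoh_toCoh, heckeOp_toCoh]
  refine congrArg _ (Subtype.ext (funext fun γ => ?_))
  show red ((heckeData (scalarRep χ O) ℓ).raw c.1 γ) =
    (heckeData (scalarRep χ' k) ℓ).raw (fun δ => red (c.1 δ)) γ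
  rw [Data.raw_apply, Data.raw_apply, map_sum]
  refine Finset.sum_congr rfl fun x _ => ?_
  show red (χ (aUnit x) • c.1 _) = χ' (aUnit x) • red (c.1 _)
  rw [smul_eq_mul, smul_eq_mul, map_mul, hχ]
  refine congrArg (fun δ => χ' (aUnit x) * red (c.1 δ)) ?_
  exact ((heckeData (scalarRep χ' k) ℓ).spec_unique toGL_injective
    ((heckeData (scalarRep χ O) ℓ).mul_spec x γ)).2.symm

theorem evalAt_redCoh (γ : Gamma0 N) (h : scalarRep χ O (dUnit N γ) = 1)
    (h' : scalarRep χ' k (dUnit N γ) = 1) (u : Coh1 (scalarRep χ O)) :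
    evalAt (scalarRep χ' k) γ h' (redCoh red χ χ' hχ u) = red (evalAt (scalarRep χ O) γ h u) := by
  obtain ⟨c, rfl⟩ := toCoh_surjective _ u
  rfl

end Semi

section Away

variable {N : ℕ} {O : Type} [CommRing O] {V : Type} [AddCommGroup V] [Module O V]
  {W : Type} [AddCommGroup W] [Module O W] (S : Set ℕ)
  (ρ : Representation O (ZMod N)ˣ V) {σ : Representation O (ZMod N)ˣ W}

/-- The action of the Hecke polynomials away from `S`. -/
def awayHom : AwayPoly O S →ₐ[O] Module.End O (Coh1 ρ) :=
  (heckeHom ρ).comp (awayIncl O S)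

theorem awayHom_X (i : AwayIndex S) :
    awayHom S ρ (X i) = heckeGen ρ (i : Nat.Primes) := by
  rw [awayHom, AlgHom.comp_apply, awayIncl_X, heckeHom_X]

variable {ρ}

theorem cohMap_awayHom (f : V →ₗ[O] W) (hf : IsIntertwining ρ σ f) (P : AwayPoly O S)
    (u : Coh1 ρ) : cohMap f hf (awayHom S ρ P u) = awayHom S σ P (cohMap f hf u) :=
  (cohMap f hf).map_smul (awayIncl O S P) u

theorem redCoh_awayHom {k : Type} [CommRing k] (red : O →+* k) (χ : (ZMod N)ˣ →* O)
    (χ' : (ZMod N)ˣ →* k) (hχ : ∀ u, red (χ u) = χ' u) (P : AwayPoly O S)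
    (u : Coh1 (scalarRep χ O)) :
    redCoh red χ χ' hχ (awayHom S (scalarRep χ O) P u) =
      awayHom S (scalarRep χ' k) (map red P) (redCoh red χ χ' hχ u) := by
  induction P using MvPolynomial.induction_on generalizing u with
  | C r =>
    rw [map_C, ← MvPolynomial.algebraMap_eq, ← MvPolynomial.algebraMap_eq, AlgHom.commutes,
      AlgHom.commutes, Module.algebraMap_end_apply, Module.algebraMap_end_apply, redCoh_smul]
  | add P Q hP hQ => simp only [map_add, LinearMap.add_apply, hP, hQ]
  | mul_X P i hP =>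
    have : Fact ((i : Nat.Primes) : ℕ).Prime := ⟨(i : Nat.Primes).2⟩
    rw [map_mul (MvPolynomial.map red), map_X, map_mul, map_mul, Module.End.mul_apply,
      Module.End.mul_apply, hP, awayHom_X, awayHom_X]
    exact congrArg _ (redCoh_heckeOp red χ χ' hχ _ u)

end Away

section Lifting

variable {N : ℕ} [NeZero N] {O : Type} [CommRing O] [IsDomain O] [IsDiscreteValuationRing O]
  {k : Type} [Field k] (red : O →+* k) (hker : RingHom.ker red = IsLocalRing.maximalIdeal O)
  (χ : (ZMod N)ˣ →* O) (hχ1 : χ (-1) = 1) (χ' : (ZMod N)ˣ →* k) (hχ : ∀ u, red (χ u) = χ' u)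

include hker hχ1 hχ in
omit [NeZero N] in
/-- Independence of reductions: a relation with independent coefficients is a relation of
divisibility by the uniformiser. -/
theorem exists_smul_of_sum_redCoh_eq_zero {π : O} (hπ : Irreducible π) {ι : Type} [Fintype ι]
    (c : ι → k)
    (hc : ∀ r : ι → O, ∑ i, red (r i) * c i = 0 → ∀ i, red (r i) = 0)
    (x : ι → Coh1 (scalarRep χ O))
    (h : ∑ i, c i • redCoh red χ χ' hχ (x i) = 0) (i : ι) :
    ∃ y : Coh1 (scalarRep χ O), x i = π • y := by
  classical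
  set m := IsLocalRing.maximalIdeal O with hm
  have hspan : m = Ideal.span {π} := hπ.maximalIdeal_eq
  let : Field (O ⧸ m) := Ideal.Quotient.field m
  let e : (O ⧸ m) →+* k := Ideal.Quotient.lift m red fun a ha => by
    rw [← hker] at ha
    exact ha
  let : Algebra (O ⧸ m) k := e.toAlgebra
  have he : ∀ r : O, algebraMap (O ⧸ m) k (Ideal.Quotient.mk m r) = red r := fun r => rfl
  have hli : LinearIndependent (O ⧸ m) c := by
    refine Fintype.linearIndependent_iff.mpr fun g hg j => ?_
    choose r hr using fun i => Ideal.Quotient.mk_surjective (g i)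
    have h0 : ∑ i, red (r i) * c i = 0 := by
      rw [← hg]
      exact Finset.sum_congr rfl fun i _ => by rw [← hr i, Algebra.smul_def, he]
    rw [← hr j, Ideal.Quotient.eq_zero_iff_mem, ← hker]
    exact hc r h0 j
  obtain ⟨l, hl⟩ : ∃ l : k →ₗ[O ⧸ m] (O ⧸ m), ∀ j, l (c j) = if j = i then 1 else 0 := by
    let B := Module.Basis.extend hli.linearIndepOn_id
    refine ⟨B.constr ℕ fun b => if (b : k) = c i then 1 else 0, fun j => ?_⟩
    have hb : c j ∈ hli.linearIndepOn_id.extend (Set.subset_univ _) :=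
      hli.linearIndepOn_id.subset_extend _ (Set.mem_range_self j)
    have e1 : c j = B ⟨c j, hb⟩ := (Module.Basis.extend_apply_self _ ⟨c j, hb⟩).symm
    conv_lhs => rw [e1, Module.Basis.constr_basis]
    by_cases hji : j = i
    · rw [if_pos hji, if_pos (congrArg c hji)]
    · rw [if_neg hji, if_neg fun e => hji (hli.injective e)]
  choose z hz using fun j => toCoh_surjective (scalarRep χ O) (x j)
  have hrel : toCoh (scalarRep χ' k) (∑ j, c j • redCocycle red χ χ' hχ (z j)) = 0 := by
    rw [map_sum]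
    refine Eq.trans (Finset.sum_congr rfl fun j _ => ?_) h
    rw [map_smul, ← redCoh_toCoh, hz]
  obtain ⟨a, ha⟩ := (toCoh_eq_zero_iff _).mp hrel
  let μ : O →ₗ[O] O := LinearMap.mulLeft O π
  let q : O →ₗ[O] O ⧸ m := Submodule.mkQ m
  have hμi : Function.Injective μ := fun a b hab => mul_left_cancel₀ hπ.ne_zero hab
  have hex : Function.Exact μ q := fun a => by
    show Submodule.Quotient.mk a = (0 : O ⧸ m) ↔ _
    rw [Submodule.Quotient.mk_eq_zero, hspan, Ideal.mem_span_singleton]
    exact ⟨fun ⟨b, hb⟩ => ⟨b, hb.symm⟩, fun ⟨b, hb⟩ => ⟨b, hb.symm⟩⟩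
  have hu : cohMap q (isIntertwining_scalar χ q) (x i) = 0 := by
    rw [← hz i, cohMap_toCoh, toCoh_eq_zero_iff]
    refine ⟨l a, fun γ => ?_⟩
    have hγ := congrArg l (ha γ)
    rw [scalarRep_apply, map_sub, smul_eq_mul, ← hχ, ← he] at hγ
    rw [← Algebra.smul_def, map_smul] at hγ
    have hsum : (∑ j, c j • redCocycle red χ χ' hχ (z j)).1 γ =
        ∑ j, Ideal.Quotient.mk m ((z j).1 γ) • c j := by
      simp only [Submodule.coe_sum, Finset.sum_apply]
      exact Finset.sum_congr rfl fun j _ => by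
        rw [Algebra.smul_def, he, mul_comm]
        rfl
    rw [hsum, map_sum] at hγ
    simp only [map_smul, hl, smul_eq_mul, mul_ite, mul_one, mul_zero, Finset.sum_ite_eq',
      Finset.mem_univ, if_true] at hγ
    rw [cocycleMap_apply, scalarRep_apply]
    exact hγ
  obtain ⟨y, hy⟩ := cohMap_exact μ (isIntertwining_scalar χ μ) q (isIntertwining_scalar χ q) hμi
    (Submodule.mkQ_surjective m) hex (scalarRep_neg_one hχ1 O) hu
  refine ⟨y, ?_⟩
  obtain ⟨d, rfl⟩ := toCoh_surjective _ y
  rw [← hy, cohMap_toCoh, ← map_smul]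
  exact congrArg _ (Subtype.ext (funext fun γ => rfl))

variable (S : Set ℕ) (P₀ : Set (Gamma0 N)) (hP₀ : ∀ γ ∈ P₀, χ (dUnit N γ) = 1)

/-- The classes all whose Hecke translates are killed on `P₀`. -/
def killed : Submodule O (Coh1 (scalarRep χ O)) :=
  ⨅ (P : AwayPoly O S) (γ : P₀),
    LinearMap.ker ((evalAt (scalarRep χ O) (γ : Gamma0 N)
      (scalarRep_eq_one (hP₀ _ γ.2))).comp (awayHom S (scalarRep χ O) P))

omit [NeZero N] [IsDomain O] [IsDiscreteValuationRing O] in
theorem mem_killed {x : Coh1 (scalarRep χ O)} :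
    x ∈ killed χ S P₀ hP₀ ↔ ∀ (P : AwayPoly O S) (γ : Gamma0 N) (hγ : γ ∈ P₀),
      evalAt (scalarRep χ O) γ (scalarRep_eq_one (hP₀ γ hγ))
        (awayHom S (scalarRep χ O) P x) = 0 := by
  simp only [killed, Submodule.mem_iInf, LinearMap.mem_ker, LinearMap.comp_apply, Subtype.forall]

omit [NeZero N] [IsDomain O] [IsDiscreteValuationRing O] in
theorem awayHom_mem_killed {x : Coh1 (scalarRep χ O)} (hx : x ∈ killed χ S P₀ hP₀)
    (Q : AwayPoly O S) : awayHom S (scalarRep χ O) Q x ∈ killed χ S P₀ hP₀ :=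
  (mem_killed χ S P₀ hP₀).mpr fun P γ hγ => by
    rw [← Module.End.mul_apply, ← map_mul]
    exact (mem_killed χ S P₀ hP₀).mp hx _ γ hγ

omit [NeZero N] [IsDiscreteValuationRing O] in
theorem mem_killed_of_smul {x : Coh1 (scalarRep χ O)} {r : O} (hr : r ≠ 0)
    (hx : r • x ∈ killed χ S P₀ hP₀) : x ∈ killed χ S P₀ hP₀ :=
  (mem_killed χ S P₀ hP₀).mpr fun P γ hγ => by
    have h := (mem_killed χ S P₀ hP₀).mp hx P γ hγ
    rw [map_smul, map_smul, smul_eq_zero] at h
    exact h.resolve_left hr

include hker hχ1 hχ in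
/-- **An eigen class from annihilators.** If the polynomials killing the classes killed on `P₀`
vanish at the system, it has an eigen class over the residue field killed on `P₀`. -/
theorem exists_eigen_killed (val : AwayIndex S → k)
    (hann : ∀ Q : AwayPoly O S,
      (∀ x ∈ killed χ S P₀ hP₀, awayHom S (scalarRep χ O) Q x = 0) → eval₂ red val Q = 0) :
    ∃ c : Cocycle (scalarRep χ' k), toCoh (scalarRep χ' k) c ≠ 0 ∧
      (∀ γ ∈ P₀, c.1 γ = 0) ∧
      ∀ i : AwayIndex S, heckeGen (scalarRep χ' k) (i : Nat.Primes) (toCoh _ c) =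
        val i • toCoh _ c := by
  classical
  obtain ⟨π, hπ⟩ := IsDiscreteValuationRing.exists_irreducible O
  set L := killed χ S P₀ hP₀ with hL
  have := finite_coh1 (scalarRep χ O)
  have : IsNoetherian O (Coh1 (scalarRep χ O)) := isNoetherian_of_isNoetherianRing_of_finite O _
  have : Module.Finite O L := Module.IsNoetherian.finite O L
  have := finite_coh1 (scalarRep χ' k)
  let R : Coh1 (scalarRep χ O) →+ Coh1 (scalarRep χ' k) := redCoh red χ χ' hχ
  let W : Submodule k (Coh1 (scalarRep χ' k)) := Submodule.span k (R '' L)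
  have hgen : ∀ i : AwayIndex S, ∀ w ∈ W, heckeGen (scalarRep χ' k) (i : Nat.Primes) w ∈ W := by
    intro i w hw
    induction hw using Submodule.span_induction with
    | mem w hw =>
      obtain ⟨x, hx, rfl⟩ := hw
      refine Submodule.subset_span ⟨_, awayHom_mem_killed χ S P₀ hP₀ hx (X i), ?_⟩
      rw [redCoh_awayHom, map_X, awayHom_X]
    | zero => rw [map_zero]; exact W.zero_mem
    | add a b _ _ ha hb => rw [map_add]; exact W.add_mem ha hb
    | smul r a _ ha => rw [map_smul]; exact W.smul_mem r ha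
  let T : AwayIndex S → Module.End k W := fun i => (heckeGen _ (i : Nat.Primes)).restrict (hgen i)
  rcases LevelRaising.exists_eigen_or_annihilator T (fun i j => LinearMap.ext fun w => Subtype.ext
    (LinearMap.congr_fun (heckeGen_comm (scalarRep χ' k) _ _).eq w.1)) val with
    ⟨v, hv0, hv⟩ | ⟨l, hl0, hl⟩
  · obtain ⟨c, hc⟩ := toCoh_surjective (scalarRep χ' k) v.1
    refine ⟨c, fun h => hv0 (Subtype.ext (hc.symm.trans h)), fun γ hγ => ?_, fun i => ?_⟩
    · have h1 : scalarRep χ' k (dUnit N γ) = 1 :=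
        scalarRep_eq_one (by rw [← hχ, hP₀ γ hγ, map_one])
      have hW : ∀ w ∈ W, evalAt _ γ h1 w = 0 := by
        intro w hw
        induction hw using Submodule.span_induction with
        | mem w hw =>
          obtain ⟨x, hx, rfl⟩ := hw
          rw [evalAt_redCoh red χ χ' hχ γ (scalarRep_eq_one (hP₀ γ hγ)) h1 x,
            show evalAt (scalarRep χ O) γ (scalarRep_eq_one (hP₀ γ hγ)) x = 0 from by
              simpa using (mem_killed χ S P₀ hP₀).mp hx 1 γ hγ, map_zero]
        | zero => exact map_zero _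
        | add a b _ _ ha hb => rw [map_add, ha, hb, add_zero]
        | smul r a _ ha => rw [map_smul, ha, smul_zero]
      rw [← evalAt_toCoh γ h1 c, hc]
      exact hW _ v.2
    · rw [hc]
      exact congrArg Subtype.val (hv i)
  exfalso
  -- a polynomial over `k` killing `W` and not vanishing at the system
  let Q : AwayPoly k S := LevelRaising.listOp (A := AwayPoly k S) (fun i => X i) l
  have hQ : eval val Q = LevelRaising.listVal val l := by
    simp only [Q, LevelRaising.listOp, LevelRaising.listVal, map_list_prod, List.map_map]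
    congr 1
    refine List.map_congr_left fun x _ => ?_
    show aeval val (Polynomial.aeval (X x.1) x.2) = _
    rw [← Polynomial.aeval_algHom_apply, aeval_X, Polynomial.coe_aeval_eq_eval]
  have hQW : ∀ x ∈ L, awayHom S (scalarRep χ' k) Q (R x) = 0 := by
    intro x hx
    have h1 : awayHom S (scalarRep χ' k) Q =
        LevelRaising.listOp (fun i : AwayIndex S => heckeGen _ (i : Nat.Primes)) l := by
      simp only [Q, LevelRaising.listOp, map_list_prod, List.map_map]
      congr 1
      refine List.map_congr_left fun x _ => ?_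
      simp only [Function.comp_apply]
      rw [← Polynomial.aeval_algHom_apply, awayHom_X]
    have h2 := LevelRaising.listOp_sandwich W.subtype
      (T := T) (S := fun i : AwayIndex S => heckeGen _ (i : Nat.Primes)) (fun _ _ => rfl) l
      ⟨R x, Submodule.subset_span ⟨x, hx, rfl⟩⟩
    rw [hl, LinearMap.zero_apply, map_zero] at h2
    rw [h1]
    exact h2.symm
  set m := IsLocalRing.maximalIdeal O with hm
  let : Field (O ⧸ m) := Ideal.Quotient.field m
  let e : (O ⧸ m) →+* k := Ideal.Quotient.lift m red fun a ha => by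
    rw [← hker] at ha
    exact ha
  let : Algebra (O ⧸ m) k := e.toAlgebra
  let U : Submodule (O ⧸ m) k := Submodule.span (O ⧸ m) (Q.support.image fun d => coeff d Q)
  let b := Module.finBasis (O ⧸ m) U
  choose r hr using fun (d : AwayIndex S →₀ ℕ) (j : Fin (Module.finrank (O ⧸ m) U)) =>
    Ideal.Quotient.mk_surjective (I := m)
      (if h : coeff d Q ∈ U then b.repr ⟨coeff d Q, h⟩ j else 0)
  let Qj : Fin (Module.finrank (O ⧸ m) U) → AwayPoly O S := fun j =>
    ∑ d ∈ Q.support, monomial d (r d j)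
  have hcoeff : ∀ d ∈ Q.support, coeff d Q = ∑ j, (b j : k) * red (r d j) := by
    intro d hd
    have hdU : coeff d Q ∈ U := Submodule.subset_span (Finset.mem_image_of_mem _ hd)
    have h := congrArg (Subtype.val) (b.sum_repr ⟨coeff d Q, hdU⟩)
    rw [Submodule.coe_sum] at h
    refine h.symm.trans (Finset.sum_congr rfl fun j _ => ?_)
    have h2 := hr d j
    rw [dif_pos hdU] at h2
    rw [Submodule.coe_smul, ← h2, Algebra.smul_def, mul_comm]
    rfl
  have hdec : Q = ∑ j, (b j : k) • map red (Qj j) := by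
    conv_lhs => rw [as_sum Q]
    simp only [Qj, map_sum, map_monomial, Finset.smul_sum, smul_monomial, smul_eq_mul]
    rw [Finset.sum_comm]
    exact Finset.sum_congr rfl fun d hd => by rw [hcoeff d hd, map_sum]
  have hindep : ∀ s : Fin (Module.finrank (O ⧸ m) U) → O, ∑ j, red (s j) * (b j : k) = 0 →
      ∀ j, red (s j) = 0 := by
    intro s hs j
    have hb : LinearIndependent (O ⧸ m) fun j => (b j : k) :=
      b.linearIndependent.map' U.subtype (Submodule.ker_subtype U)
    have := Fintype.linearIndependent_iff.mp hb (fun j => Ideal.Quotient.mk m (s j)) (by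
      rw [← hs]
      exact Finset.sum_congr rfl fun i _ => by rw [Algebra.smul_def]; rfl) j
    exact RingHom.mem_ker.mp (hker ▸ Ideal.Quotient.eq_zero_iff_mem.mp this)
  have hzero : ∀ j, eval₂ red val (Qj j) = 0 := by
    intro j
    let f : Module.End O L := (awayHom S (scalarRep χ O) (Qj j)).restrict fun x hx =>
      awayHom_mem_killed χ S P₀ hP₀ hx _
    have hrange : LinearMap.range f ≤ m • (⊤ : Submodule O L) := by
      rintro _ ⟨x, rfl⟩
      have hsum : ∑ i, (b i : k) • R (awayHom S (scalarRep χ O) (Qj i) x.1) = 0 := by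
        rw [← hQW x.1 x.2, hdec, map_sum, LinearMap.sum_apply]
        exact Finset.sum_congr rfl fun i _ => by
          rw [map_smul, LinearMap.smul_apply, redCoh_awayHom]
      obtain ⟨y, hy⟩ := exists_smul_of_sum_redCoh_eq_zero red hker χ hχ1 χ' hχ hπ _ hindep
        (fun i => awayHom S (scalarRep χ O) (Qj i) x.1) hsum j
      have hyL : y ∈ L := mem_killed_of_smul χ S P₀ hP₀ hπ.ne_zero
        (hy ▸ awayHom_mem_killed χ S P₀ hP₀ x.2 _)
      rw [show f x = π • ⟨y, hyL⟩ from Subtype.ext hy]
      exact Submodule.smul_mem_smul ((IsLocalRing.mem_maximalIdeal π).mpr hπ.not_isUnit)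
        Submodule.mem_top
    obtain ⟨p, hp, -, hpc, hpe⟩ :=
      LinearMap.exists_monic_and_natDegree_eq_and_coeff_mem_pow_and_aeval_eq_zero O f m hrange
    have hkill : ∀ x ∈ L, awayHom S (scalarRep χ O) (Polynomial.aeval (Qj j) p) x = 0 := by
      intro x hx
      have h := congrArg Subtype.val (LinearMap.congr_fun hpe ⟨x, hx⟩)
      rw [LinearMap.zero_apply, Polynomial.aeval_endomorphism, Submodule.coe_zero] at h
      rw [← Polynomial.aeval_algHom_apply, Polynomial.aeval_endomorphism]
      refine Eq.trans ?_ h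
      rw [Polynomial.sum_def, Polynomial.sum_def, Submodule.coe_sum]
      refine Finset.sum_congr rfl fun n _ => ?_
      rw [Submodule.coe_smul]
      congr 1
      have hpow : ∀ (n : ℕ) (w : L),
          ((f ^ n) w).1 = (awayHom S (scalarRep χ O) (Qj j) ^ n) w.1 := fun n => by
        induction n with
        | zero => exact fun w => rfl
        | succ n ih =>
          intro w
          rw [pow_succ', pow_succ', Module.End.mul_apply, Module.End.mul_apply, ← ih w]
          rfl
      exact (hpow n ⟨x, hx⟩).symm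
    have h0 := hann _ hkill
    rw [← MvPolynomial.coe_eval₂Hom, Polynomial.aeval_def, Polynomial.hom_eval₂,
      MvPolynomial.algebraMap_eq, eval₂Hom_comp_C, ← Polynomial.eval_map] at h0
    rw [← MvPolynomial.coe_eval₂Hom]
    have hlow : p.map red = Polynomial.X ^ p.natDegree := by
      refine Polynomial.ext fun n => ?_
      rw [Polynomial.coeff_map, Polynomial.coeff_X_pow]
      rcases lt_trichotomy n p.natDegree with hn | hn | hn
      · rw [if_neg hn.ne]
        refine RingHom.mem_ker.mp (hker ▸ Ideal.pow_le_self (by omega) (hpc n))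
      · rw [if_pos hn, hn, hp.coeff_natDegree, map_one]
      · rw [if_neg hn.ne', Polynomial.coeff_eq_zero_of_natDegree_lt hn, map_zero]
    rw [hlow, Polynomial.eval_pow, Polynomial.eval_X] at h0
    exact eq_zero_of_pow_eq_zero h0
  apply hl0
  rw [← hQ, hdec, map_sum]
  refine Finset.sum_eq_zero fun j _ => ?_
  rw [smul_eval, eval_map, hzero j, mul_zero]

end Lifting

section Class

variable {N : ℕ} [NeZero N] {O : Type} [CommRing O] [IsDomain O] [IsDiscreteValuationRing O]
  {k : Type} [Field k] (red : O →+* k) (hker : RingHom.ker red = IsLocalRing.maximalIdeal O)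
  (χ : (ZMod N)ˣ →* O) (hχ1 : χ (-1) = 1) (χ' : (ZMod N)ˣ →* k) (hχ : ∀ u, red (χ u) = χ' u)
  (S : Set ℕ) (P₀ : Set (Gamma0 N)) (hP₀ : ∀ γ ∈ P₀, χ (dUnit N γ) = 1)
  {V : Type} [AddCommGroup V] [Module O V] [Module.IsTorsionFree O V]

include hker hχ1 hχ in
/-- **An eigen class from a class in characteristic zero.** -/
theorem exists_eigen_of_class (c₀ : Cocycle (scalarRep χ V)) (val : AwayIndex S → k)
    (hpar : ∀ (P : AwayPoly O S) (γ : Gamma0 N) (hγ : γ ∈ P₀),
      evalAt (scalarRep χ V) γ (scalarRep_eq_one (hP₀ γ hγ))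
        (awayHom S (scalarRep χ V) P (toCoh _ c₀)) = 0)
    (hann : ∀ Q : AwayPoly O S, awayHom S (scalarRep χ V) Q (toCoh _ c₀) = 0 →
      eval₂ red val Q = 0) :
    ∃ c : Cocycle (scalarRep χ' k), toCoh (scalarRep χ' k) c ≠ 0 ∧
      (∀ γ ∈ P₀, c.1 γ = 0) ∧
      ∀ i : AwayIndex S, heckeGen (scalarRep χ' k) (i : Nat.Primes) (toCoh _ c) =
        val i • toCoh _ c := by
  classical
  obtain ⟨s, hs, hfin⟩ := Group.fg_iff.mp (fg_Gamma0 (N := N))
  let U : Submodule O V := Submodule.span O (c₀.1 '' s)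
  have hU : ∀ γ, c₀.1 γ ∈ U := by
    have hone : c₀.1 1 = 0 := by
      have h := c₀.2.1 1 1
      rwa [mul_one, map_one, Module.End.one_apply, left_eq_add] at h
    let G : Subgroup (Gamma0 N) :=
      { carrier := {g | c₀.1 g ∈ U}
        one_mem' := by
          show c₀.1 1 ∈ U
          rw [hone]
          exact U.zero_mem
        mul_mem' := fun {g h} (hg : c₀.1 g ∈ U) (hh : c₀.1 h ∈ U) => by
          show c₀.1 (g * h) ∈ U
          rw [c₀.2.1, gammaRep_apply, scalarRep_apply]
          exact U.add_mem hg (U.smul_mem _ hh)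
        inv_mem' := fun {g} (hg : c₀.1 g ∈ U) => by
          show c₀.1 g⁻¹ ∈ U
          have h := c₀.2.1 g⁻¹ g
          rw [inv_mul_cancel, hone] at h
          rw [eq_neg_of_add_eq_zero_left h.symm, gammaRep_apply, scalarRep_apply]
          exact U.neg_mem (U.smul_mem _ hg) }
    have hG : G = ⊤ := by
      rw [eq_top_iff, ← hs, Subgroup.closure_le]
      exact fun g hg => Submodule.subset_span (Set.mem_image_of_mem _ hg)
    exact fun γ => (hG.symm ▸ Subgroup.mem_top γ : γ ∈ G)
  have : Module.Finite O U := Module.Finite.span_of_finite O (hfin.image _)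
  have : Module.Free O U := Module.free_of_finite_type_torsion_free'
  let b := Module.Free.chooseBasis O U
  let cU : Cocycle (scalarRep χ U) := ⟨fun γ => ⟨c₀.1 γ, hU γ⟩,
    fun g h => Subtype.ext (c₀.2.1 g h), fun x hx => Subtype.ext (c₀.2.2 x hx)⟩
  have hι := isIntertwining_scalar (N := N) χ U.subtype
  have hcU : cohMap U.subtype hι (toCoh _ cU) = toCoh _ c₀ := rfl
  refine exists_eigen_killed red hker χ hχ1 χ' hχ S P₀ hP₀ val fun Q hQ => hann Q ?_
  have hcoord : ∀ i, cohMap (b.coord i) (isIntertwining_scalar χ _)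
      (awayHom S (scalarRep χ U) Q (toCoh _ cU)) = 0 := fun i => by
    rw [cohMap_awayHom]
    refine hQ _ ((mem_killed χ S P₀ hP₀).mpr fun P γ hγ => ?_)
    rw [← cohMap_awayHom, evalAt_cohMap _ _ γ (scalarRep_eq_one (hP₀ γ hγ))]
    have h := hpar P γ hγ
    rw [← hcU, ← cohMap_awayHom, evalAt_cohMap _ _ γ (scalarRep_eq_one (hP₀ γ hγ))] at h
    exact (congrArg (b.coord i) (Subtype.ext (h.trans (map_zero U.subtype).symm))).trans
      (map_zero _)
  obtain ⟨d, hd⟩ := toCoh_surjective _ (awayHom S (scalarRep χ U) Q (toCoh _ cU))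
  have hd0 : toCoh (scalarRep χ U) d = 0 := by
    simp only [← hd, cohMap_toCoh, toCoh_eq_zero_iff] at hcoord
    choose a ha using hcoord
    refine (toCoh_eq_zero_iff d).mpr ⟨∑ i, a i • b i, fun γ => ?_⟩
    rw [scalarRep_apply, Finset.smul_sum, ← Finset.sum_sub_distrib]
    conv_lhs => rw [← b.sum_repr (d.1 γ)]
    refine Finset.sum_congr rfl fun i _ => ?_
    rw [show b.repr (d.1 γ) i = χ (dUnit N γ) • a i - a i from ha i γ, sub_smul, smul_assoc]
  rw [← hcU, ← cohMap_awayHom, ← hd, hd0, map_zero]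

end Class

end Fermat.Agent.Row48.Periods

end
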