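import Mathlib.NumberTheory.ModularForms.QExpansion
import Mathlib.RingTheory.RootsOfUnity.Complex
import Fermat.Prelude.Def_ModularForm_HeckeOperator

/-!
# Functions given by a `q`-series

Linearity, the two halves of a Hecke operator, and uniqueness.
-/

set_option autoImplicit false

noncomputable section

open Filter Function ModularForm
open UpperHalfPlane hiding I
open scoped Real Manifold MatrixGroups Topology

namespace Fermat.Agent.Row48.Periods

/-- `φ τ = ∑ aₙ qⁿ`. -/
def SeriesOf (φ : ℍ → ℂ) (a : ℕ → ℂ) : Prop :=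
  ∀ τ : ℍ, HasSum (fun n => a n * Periodic.qParam 1 τ ^ n) (φ τ)

variable {φ ψ : ℍ → ℂ} {a b : ℕ → ℂ}

theorem SeriesOf.add (h : SeriesOf φ a) (h' : SeriesOf ψ b) : SeriesOf (φ + ψ) (a + b) :=
    fun τ => by
  simpa only [Pi.add_apply, add_mul] using (h τ).add (h' τ)

theorem SeriesOf.smul (c : ℂ) (h : SeriesOf φ a) : SeriesOf (c • φ) (c • a) := fun τ => by
  simpa only [Pi.smul_apply, smul_eq_mul, mul_assoc] using (h τ).mul_left c

theorem SeriesOf.diag (h : SeriesOf φ a) {p : ℕ} (hp : p ≠ 0) :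
    SeriesOf (fun τ => φ (heckeDiagMatrix p • τ)) fun n => if p ∣ n then a (n / p) else 0 := by
  intro τ
  have hq : Periodic.qParam 1 ((heckeDiagMatrix p • τ : ℍ) : ℂ) = Periodic.qParam 1 τ ^ p := by
    simp only [Periodic.qParam, coe_heckeDiagMatrix_smul hp, ← Complex.exp_nat_mul]
    congr 1
    push_cast
    ring
  have hD := h (heckeDiagMatrix p • τ)
  rw [hq] at hD
  refine ((mul_left_injective₀ hp).hasSum_iff (f := fun n =>
    (if p ∣ n then a (n / p) else 0) * Periodic.qParam 1 τ ^ n) (fun m hm => ?_)).mp ?_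
  · rw [if_neg fun ⟨l, hl⟩ => hm ⟨l, by simp [hl, mul_comm]⟩, zero_mul]
  convert hD using 1
  · funext l
    simp only [comp_apply, if_pos (dvd_mul_left p l), Nat.mul_div_cancel _ (Nat.pos_of_ne_zero hp)]
    rw [← pow_mul, mul_comm l p]

theorem SeriesOf.average (h : SeriesOf φ a) {p : ℕ} [NeZero p] :
    SeriesOf (fun τ => (p : ℂ)⁻¹ * ∑ j : ZMod p, φ (heckeMatrix p j.val • τ))
      fun n => a (n * p) := by
  intro τ
  have hp : p ≠ 0 := NeZero.ne p
  have hp' : (p : ℂ) ≠ 0 := Nat.cast_ne_zero.mpr hp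
  set ζ : ℂ := Complex.exp (2 * π * Complex.I / p) with hζdef
  set r : ℂ := Complex.exp (2 * π * Complex.I * τ / p) with hr
  have hq : ∀ j : ℕ, Periodic.qParam 1 ((heckeMatrix p j • τ : ℍ) : ℂ) = r * ζ ^ j := by
    intro j
    rw [hr, hζdef, Periodic.qParam, coe_heckeMatrix_smul hp, ← Complex.exp_nat_mul,
      ← Complex.exp_add]
    congr 1
    field_simp
    push_cast
    ring
  have hrp : r ^ p = Periodic.qParam 1 τ := by
    rw [hr, Periodic.qParam, ← Complex.exp_nat_mul]
    congr 1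
    field_simp
    push_cast
    ring
  have hζ : IsPrimitiveRoot ζ p := Complex.isPrimitiveRoot_exp p hp
  have h1 : HasSum (fun m => ∑ j : ZMod p, a m * (r * ζ ^ j.val) ^ m)
      (∑ j : ZMod p, φ (heckeMatrix p j.val • τ)) :=
    hasSum_sum fun j _ => by
      have := h (heckeMatrix p j.val • τ)
      rwa [hq] at this
  have h2 : (fun m => ∑ j : ZMod p, a m * (r * ζ ^ j.val) ^ m)
      = fun m => if p ∣ m then (p : ℂ) * a m * r ^ m else 0 := by
    funext m
    simp only [mul_pow, ← pow_mul, ← Finset.mul_sum, mul_comm _ m]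
    simp only [pow_mul]
    split_ifs with hd
    · rw [(hζ.pow_eq_one_iff_dvd m).mpr hd]
      simp [ZMod.card]
      ring
    · have hne : ζ ^ m ≠ 1 := fun h1 => hd ((hζ.pow_eq_one_iff_dvd m).mp h1)
      have hsum : ∑ j : ZMod p, (ζ ^ m) ^ j.val = ∑ j ∈ Finset.range p, (ζ ^ m) ^ j :=
        Finset.sum_bij (fun j _ => j.val) (fun j _ => Finset.mem_range.mpr j.val_lt)
          (fun i _ j _ h => ZMod.val_injective p h)
          (fun j hj => ⟨(j : ZMod p), Finset.mem_univ _,
            ZMod.val_natCast_of_lt (Finset.mem_range.mp hj)⟩) (fun _ _ => rfl)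
      rw [hsum, geom_sum_eq hne, ← pow_mul, mul_comm m p, pow_mul, hζ.pow_eq_one, one_pow,
        sub_self, zero_div, mul_zero, mul_zero]
  rw [h2] at h1
  have hinj : Injective (fun l : ℕ => l * p) := mul_left_injective₀ hp
  have h3 := (hinj.hasSum_iff (f := fun m => if p ∣ m then (p : ℂ) * a m * r ^ m else 0)
    (fun m hm => if_neg fun ⟨l, hl⟩ => hm ⟨l, by simp [hl, mul_comm]⟩)).mpr h1
  refine (h3.mul_left (p : ℂ)⁻¹).congr_fun fun l => ?_
  simp only [comp_apply, if_pos (dvd_mul_left p l)]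
  rw [mul_comm l p, pow_mul, hrp]
  field_simp

/-- The zero function has the zero series. -/
theorem SeriesOf.eq_zero (h : SeriesOf 0 a) (n : ℕ) : a n = 0 := by
  have hc : Continuous (0 : ℍ → ℂ) := continuous_const
  have := qExpansion_coeff_unique (ContinuousMap.mk _ hc) one_pos
    (analyticAt_cuspFunction_zero one_pos (fun z => rfl) mdifferentiable_const
      (Filter.const_boundedAtFilter atImInfty (0 : ℂ)))
    (fun τ => by simpa [smul_eq_mul] using h τ) n
  simpa [qExpansion_zero] using this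

end Fermat.Agent.Row48.Periods

end
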