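import Fermat.Agent.HeckeFinite.Period
import Fermat.Agent.EichlerShimura.HeckePeriod
import Fermat.Agent.EichlerShimura.Facts
import Fermat.Agent.Row48.EigenClass.Reduce
import Fermat.Agent.Row48.EigenClass.Series
import Mathlib.NumberTheory.ModularForms.NormTrace

/-!
# Periods with a character

A class over `ℂ` is represented by a primitive when it is the class of the periods of a function
with a limit at every cusp whose derivative has a given `q`-series.  The represented classes are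
stable under the Hecke operators, vanish on parabolic elements with trivial character, and the zero
class only has the zero series.
-/

set_option autoImplicit false

noncomputable section

open CongruenceSubgroup UpperHalfPlane Filter Matrix.SpecialLinearGroup
open scoped MatrixGroups Topology OnePoint Manifold ModularForm

namespace Fermat.Agent.Row48.Periods

open HeckeJ0 HeckeModule EichlerShimura

variable {N : ℕ} {O : Type} [CommRing O] [Algebra O ℂ] (χ : (ZMod N)ˣ →* O)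

/-- `u` is the class of the periods of a primitive of `∑ aₙ qⁿ`. -/
def Represents (u : Coh1 (scalarRep χ ℂ)) (a : ℕ → ℂ) : Prop :=
  ∃ (c : Cocycle (scalarRep χ ℂ)) (F φ : ℍ → ℂ), toCoh _ c = u ∧
    (∀ τ : ℍ, HasDerivAt (F ∘ ofComplex) (φ τ) τ) ∧
    (∀ (γ : Gamma0 N) (τ : ℍ), F ((γ : SL(2, ℤ)) • τ) = c.1 γ + χ (dUnit N γ) • F τ) ∧
    (∀ δ : SL(2, ℤ), ∃ L : ℂ, Tendsto (fun w : ℍ => F (δ • w)) atImInfty (𝓝 L)) ∧
    SeriesOf φ a

variable {χ}

theorem Represents.add {u v : Coh1 (scalarRep χ ℂ)} {a b : ℕ → ℂ} (h : Represents χ u a)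
    (h' : Represents χ v b) : Represents χ (u + v) (a + b) := by
  obtain ⟨c, F, φ, rfl, hd, he, hl, hs⟩ := h
  obtain ⟨c', F', φ', rfl, hd', he', hl', hs'⟩ := h'
  refine ⟨c + c', F + F', φ + φ', map_add _ _ _, fun τ => (hd τ).add (hd' τ), fun γ τ => ?_,
    fun δ => ?_, hs.add hs'⟩
  · simp only [Pi.add_apply, he, he', Submodule.coe_add, smul_add]
    ring
  · obtain ⟨L, hL⟩ := hl δ
    obtain ⟨L', hL'⟩ := hl' δ
    exact ⟨L + L', hL.add hL'⟩

theorem Represents.smul (r : O) {u : Coh1 (scalarRep χ ℂ)} {a : ℕ → ℂ} (h : Represents χ u a) :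
    Represents χ (r • u) (algebraMap O ℂ r • a) := by
  obtain ⟨c, F, φ, rfl, hd, he, hl, hs⟩ := h
  refine ⟨r • c, algebraMap O ℂ r • F, algebraMap O ℂ r • φ, map_smul _ _ _,
    fun τ => (hd τ).const_smul _, fun γ τ => ?_, fun δ => ?_, hs.smul _⟩
  · simp only [Pi.smul_apply, he, SetLike.val_smul, smul_eq_mul]
    simp only [Algebra.smul_def]
    ring
  · obtain ⟨L, hL⟩ := hl δ
    exact ⟨algebraMap O ℂ r • L, hL.const_smul _⟩

theorem exists_smul_I (τ : ℍ) : ∃ M : GL (Fin 2) ℝ, M • UpperHalfPlane.I = τ := by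
  refine ⟨ModularForm.upperTriangularGL τ.im τ.re 1 (by simp [τ.im_pos.ne']), UpperHalfPlane.ext ?_⟩
  rw [coe_smul_of_det_pos (by simp [Matrix.det_fin_two, τ.im_pos])]
  simp only [num, denom, ModularForm.val_upperTriangularGL, Matrix.of_apply, Matrix.cons_val',
    Matrix.cons_val_zero, Matrix.cons_val_one, Matrix.cons_val_fin_one, coe_I]
  simp [Complex.ext_iff, mul_comm]

/-- An integral matrix with positive determinant sends `i∞` to a cusp. -/
theorem exists_tendsto_smul {F : ℍ → ℂ}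
    (hl : ∀ δ : SL(2, ℤ), ∃ L : ℂ, Tendsto (fun w : ℍ => F (δ • w)) atImInfty (𝓝 L))
    (g : GL (Fin 2) ℝ) (A C : ℤ) (hA : g 0 0 = A) (hC : g 1 0 = C) :
    ∃ L : ℂ, Tendsto (fun w : ℍ => F (g • w)) atImInfty (𝓝 L) := by
  have hne : Int.gcd A C ≠ 0 := fun h => by
    obtain ⟨rfl, rfl⟩ := Int.gcd_eq_zero_iff.mp h
    exact g.det_ne_zero (by simp [Matrix.det_fin_two, hA, hC])
  obtain ⟨A', C', hco, hA', hC'⟩ := Int.exists_gcd_one (Nat.pos_of_ne_zero hne)
  obtain ⟨x, y, hxy⟩ := Int.isCoprime_iff_gcd_eq_one.mpr hco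
  let δ : SL(2, ℤ) := ⟨!![A', -y; C', x], by
    rw [Matrix.det_fin_two_of]; linear_combination hxy⟩
  obtain ⟨L, hL⟩ := hl δ
  refine ⟨L, ?_⟩
  have h10 : ((mapGL ℝ δ)⁻¹ * g) 1 0 = 0 := by
    rw [← map_inv, Units.val_mul, Matrix.mul_apply, Fin.sum_univ_two, val_mapGL_apply,
      val_mapGL_apply, hA, hC]
    simp [δ, Matrix.SpecialLinearGroup.coe_inv, Matrix.adjugate_fin_two]
    have e1 : (A : ℝ) = A' * (Int.gcd A C : ℕ) := by exact_mod_cast hA'
    have e2 : (C : ℝ) = C' * (Int.gcd A C : ℕ) := by exact_mod_cast hC'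
    rw [e1, e2]
    ring
  have h := hL.comp (tendsto_smul_atImInfty h10)
  refine h.congr fun w => ?_
  show F (mapGL ℝ δ • ((mapGL ℝ δ)⁻¹ * g) • w) = F (g • w)
  rw [← mul_smul, mul_inv_cancel_left]

theorem smul_comp_deriv {p : ℕ} [Fact p.Prime] {F φ : ℍ → ℂ}
    (hd : ∀ τ : ℍ, HasDerivAt (F ∘ ofComplex) (φ τ) τ) (x : Idx N p) :
    ∀ τ : ℍ, HasDerivAt ((fun w : ℍ => F (rep x • w)) ∘ ofComplex)
      ((x.1.elim (p : ℂ) fun _ => (p : ℂ)⁻¹) * φ (rep x • τ)) τ := by
  have hne := (Fact.out : p.Prime).ne_zero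
  have : NeZero p := ⟨hne⟩
  obtain ⟨x, hx⟩ := x
  intro τ
  cases x with
  | infty =>
    have h := hasDerivAt_comp_affine (isAffineAt_heckeDiagMatrix hne) (F := F) (τ := τ) (hd _)
    show HasDerivAt ((fun w : ℍ => F (ModularForm.heckeDiagMatrix p • w)) ∘ ofComplex)
      ((p : ℂ) * φ (ModularForm.heckeDiagMatrix p • τ)) τ
    simpa using h
  | coe j =>
    have h := hasDerivAt_comp_affine (isAffineAt_heckeMatrix hne j.val) (F := F) (τ := τ) (hd _)
    push_cast at h
    exact h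

/-- The Hecke operator on coefficients. -/
def coeffHecke (χ : (ZMod N)ˣ →* O) (p : ℕ) (hp : p.Coprime N) (a : ℕ → ℂ) (n : ℕ) : ℂ :=
  a (n * p) + if p ∣ n then algebraMap O ℂ (χ (ZMod.unitOfCoprime p hp)) * (p * a (n / p)) else 0

/-- Represented classes are stable under the Hecke operators. -/
theorem Represents.hecke {u : Coh1 (scalarRep χ ℂ)} {a : ℕ → ℂ} (h : Represents χ u a) (p : ℕ)
    [hpf : Fact p.Prime] (hp : p.Coprime N) :
    Represents χ (heckeOp (scalarRep χ ℂ) p u) (coeffHecke χ p hp a) := by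
  have hne := hpf.out.ne_zero
  have : NeZero p := ⟨hne⟩
  obtain ⟨c, F, φ, rfl, hd, he, hl, hs⟩ := h
  let D := heckeData (scalarRep χ ℂ) p
  let F' : ℍ → ℂ := fun τ => ∑ x : Idx N p, χ (aUnit x) • F (rep x • τ)
  let φ' : ℍ → ℂ := fun τ => ∑ x : Idx N p,
    algebraMap O ℂ (χ (aUnit x)) * ((x.1.elim (p : ℂ) fun _ => (p : ℂ)⁻¹) * φ (rep x • τ))
  have heq : IsEquivariant (toGL N) (gammaRep (scalarRep χ ℂ)) c.1
      (fun M => F (M • UpperHalfPlane.I)) := fun g M => by
    show F ((toGL N g * M) • UpperHalfPlane.I) = _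
    rw [mul_smul]
    exact he g (M • UpperHalfPlane.I)
  have hF' := D.isEquivariant_act toGL_injective heq
  refine ⟨D.onCocycles toGL_injective c, F', φ', rfl, fun τ => ?_, fun γ τ => ?_, fun δ => ?_, ?_⟩
  · refine (HasDerivAt.fun_sum (u := Finset.univ) fun x _ =>
      (smul_comp_deriv hd x τ).const_mul (algebraMap O ℂ (χ (aUnit x)))).congr_of_eventuallyEq ?_
    refine Eventually.of_forall fun z => ?_
    simp [F', Algebra.smul_def]
  · obtain ⟨M, rfl⟩ := exists_smul_I τ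
    have h := hF' γ M
    have hact : ∀ M' : GL (Fin 2) ℝ, D.act (fun M => F (M • UpperHalfPlane.I)) M'
        = F' (M' • UpperHalfPlane.I) := fun M' => by
      refine Finset.sum_congr rfl fun x _ => ?_
      show χ (aUnit x) • F ((rep x * M') • UpperHalfPlane.I) = _
      rw [mul_smul]
    rw [hact, hact, mul_smul] at h
    exact h
  · have hx : ∀ x : Idx N p, ∃ L : ℂ,
        Tendsto (fun w : ℍ => χ (aUnit x) • F (rep x • δ • w)) atImInfty (𝓝 L) := by
      intro x
      obtain ⟨A, B, D', hT⟩ := exists_isTri x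
      obtain ⟨L, hL⟩ := exists_tendsto_smul hl (rep x * mapGL ℝ δ)
        (A * δ 0 0 + B * δ 1 0) (D' * δ 1 0)
        (by rw [Units.val_mul, hT, Matrix.mul_apply, Fin.sum_univ_two]; simp [val_mapGL_apply])
        (by rw [Units.val_mul, hT, Matrix.mul_apply, Fin.sum_univ_two]; simp [val_mapGL_apply])
      refine ⟨algebraMap O ℂ (χ (aUnit x)) * L, (hL.const_mul _).congr fun w => ?_⟩
      rw [Algebra.smul_def, mul_smul]
      rfl
    choose L hL using hx
    exact ⟨∑ x, L x, tendsto_finsetSum _ fun x _ => hL x⟩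
  · have hnd : ¬ p ∣ N := (Nat.Prime.coprime_iff_not_dvd hpf.out).mp hp
    have h2 := (hs.average (p := p)).add
      ((hs.diag hne).smul (algebraMap O ℂ (χ (ZMod.unitOfCoprime p hp)) * p))
    convert h2 using 1
    · funext τ
      let E : OnePoint (ZMod p) ≃ Idx N p :=
        ⟨fun x => ⟨x, fun h' => absurd h' hnd⟩, fun x => x.1, fun _ => rfl, fun _ => rfl⟩
      simp only [φ']
      rw [← Equiv.sum_comp E]
      refine Eq.trans (Fintype.sum_option _) ?_
      rw [Pi.add_apply, add_comm, Finset.mul_sum, Pi.smul_apply, smul_eq_mul]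
      congr 1
      · refine Finset.sum_congr rfl fun j _ => ?_
        rw [show aUnit (E (some j)) = 1 from dif_neg (OnePoint.coe_ne_infty j),
          map_one, map_one, one_mul]
        rfl
      · rw [show aUnit (E none) = ZMod.unitOfCoprime p hp from dif_pos rfl, mul_assoc]
        rfl
    · funext n
      simp only [coeffHecke, Pi.add_apply, Pi.smul_apply, smul_eq_mul]
      split_ifs <;> ring

/-- Represented classes vanish on parabolic elements. -/
theorem Represents.evalAt_eq_zero {u : Coh1 (scalarRep χ ℂ)} {a : ℕ → ℂ} (h : Represents χ u a)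
    (γ : Gamma0 N) (hχ : χ (dUnit N γ) = 1)
    (hγ : ((γ : SL(2, ℤ)) : Matrix (Fin 2) (Fin 2) ℤ).trace ^ 2 = 4) :
    evalAt (scalarRep χ ℂ) γ (scalarRep_eq_one hχ) u = 0 := by
  obtain ⟨c, F, φ, rfl, -, he, hl, -⟩ := h
  rw [evalAt_toCoh]
  obtain ⟨δ, m, hm⟩ := exists_conj_T_of_trace_sq_eq_four (γ : SL(2, ℤ)) hγ
  obtain ⟨L, hL⟩ := hl δ
  have key : ∀ w : ℍ, F (δ • ((m : ℝ) +ᵥ w)) - F (δ • w) = c.1 γ := by
    intro w
    have h := he γ (δ • w)
    rw [hχ, one_smul] at h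
    have hsm : (γ : SL(2, ℤ)) • δ • w = δ • ((m : ℝ) +ᵥ w) := by
      rw [← UpperHalfPlane.modular_T_zpow_smul]
      rcases hm with h | h <;> rw [h] <;>
        simp only [ModularGroup.SL_neg_smul, mul_smul, inv_smul_smul]
    rw [hsm] at h
    rw [h]
    ring
  have h2 := (hL.comp (tendsto_vadd_atImInfty (m : ℝ))).sub hL
  rw [sub_self] at h2
  exact tendsto_const_nhds_iff.mp (h2.congr key)

/-- The zero class only has the zero series. -/
theorem Represents.eq_zero [NeZero N] {a : ℕ → ℂ} (h : Represents χ 0 a) (n : ℕ) : a n = 0 := by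
  obtain ⟨c, F, φ, hc, hd, he, hl, hs⟩ := h
  obtain ⟨b, hb⟩ := (toCoh_eq_zero_iff c).mp hc
  let G : ℍ → ℂ := fun τ => F τ + b
  have hG : ∀ (γ : SL(2, ℤ)), γ ∈ Gamma1 N → ∀ τ : ℍ, G (γ • τ) = G τ := by
    intro γ hγ τ
    have h0 : γ ∈ Gamma0 N := Gamma1_in_Gamma0 N hγ
    have h1 : χ (dUnit N ⟨γ, h0⟩) = 1 := by
      rw [show dUnit N ⟨γ, h0⟩ = 1 from Units.ext (by
        rw [coe_dUnit, Units.val_one]; exact ((Gamma1_mem N γ).mp hγ).2.1), map_one]
    have h := he ⟨γ, h0⟩ τ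
    rw [h1, one_smul, hb, scalarRep_apply, h1, one_smul, sub_self, zero_add] at h
    simp only [G]
    rw [← h]
  have hGd : MDiff G := fun τ =>
    mdifferentiableAt_iff.mpr (((hd τ).add_const b).differentiableAt)
  have hslash : ∀ (γ : SL(2, ℤ)) (τ : ℍ), (G ∣[(0 : ℤ)] γ) τ = G (γ • τ) := fun γ τ => by
    rw [ModularForm.SL_slash_apply, neg_zero, zpow_zero, mul_one]
  let E : ModularForm (Gamma1 N : Subgroup (GL (Fin 2) ℝ)) 0 :=
    { toFun := G
      slash_action_eq' := by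
        rintro _ ⟨γ, hγ, rfl⟩
        funext τ
        exact (hslash γ τ).trans (hG γ hγ τ)
      holo' := hGd
      bdd_at_cusps' := by
        intro d hd'
        rw [Subgroup.IsArithmetic.isCusp_iff_isCusp_SL2Z] at hd'
        rw [OnePoint.isBoundedAt_iff_forall_SL2Z hd']
        intro δ _
        obtain ⟨L, hL⟩ := hl δ
        have hfun : (G ∣[(0 : ℤ)] δ) = fun w => F (δ • w) + b := funext (hslash δ)
        show IsBoundedAtImInfty (G ∣[(0 : ℤ)] δ)
        rw [hfun]
        exact ((hL.add_const b).isBigO_one ℝ) }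
  obtain ⟨e, he'⟩ := ModularForm.eq_const_of_weight_zero E
  have hφ : φ = 0 := funext fun τ => by
    refine ((hd τ).add_const b).unique ((hasDerivAt_const (τ : ℂ) e).congr_of_eventuallyEq ?_)
    exact Eventually.of_forall fun z => congrFun he' (ofComplex z)
  subst hφ
  exact hs.eq_zero n

/-- The periods of a cusp form with character. -/
theorem exists_represents {M : ℕ} [NeZero M] (g : CuspForm (Gamma1 M) 2) (hχ1 : χ (-1) = 1)
    (hg : ∀ γ : Gamma0 N,
      (⇑g) ∣[(2 : ℤ)] (γ : SL(2, ℤ)) = algebraMap O ℂ (χ (dUnit N γ)) • ⇑g) :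
    ∃ u : Coh1 (scalarRep χ ℂ), Represents χ u fun n => (qExpansion 1 g).coeff n := by
  have hΓ : (1 : ℝ) ∈ (Gamma1 M : Subgroup (GL (Fin 2) ℝ)).strictPeriods := by simp
  have hcl : HeckeFinite.CuspLike (1 : ℝ) g :=
    ⟨one_pos, SlashInvariantFormClass.periodic_comp_ofComplex g hΓ, CuspFormClass.holo g,
      haveI : Fact (IsCusp OnePoint.infty (Gamma1 M : Subgroup (GL (Fin 2) ℝ))) :=
        ⟨Subgroup.isCusp_of_mem_strictPeriods one_pos hΓ⟩
      CuspFormClass.zero_at_infty g⟩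
  set F := HeckeFinite.prim ⇑g
  have hF : HeckeFinite.IsPrim F g := hcl.prim_spec.1
  have hchain : ∀ (δ : SL(2, ℤ)) (τ : ℍ),
      HasDerivAt ((fun w : ℍ => F (δ • w)) ∘ ofComplex) (((⇑g) ∣[(2 : ℤ)] δ) τ) τ := by
    intro δ τ
    have hdet : ((mapGL ℝ δ : GL (Fin 2) ℝ)).val.det = 1 :=
      ((Matrix.SpecialLinearGroup.map (Int.castRingHom ℝ)) δ).det_coe
    have hdet0 : 0 < ((mapGL ℝ δ : GL (Fin 2) ℝ)).val.det := by rw [hdet]; exact one_pos
    have h1 := (hasStrictDerivAt_smul hdet0 τ).hasDerivAt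
    have h2 : HasDerivAt (F ∘ ofComplex) (g (δ • τ))
        (((mapGL ℝ δ) • ofComplex (τ : ℂ) : ℍ) : ℂ) := by
      rw [ofComplex_apply]
      exact hF (δ • τ)
    have h3 := h2.comp (τ : ℂ) h1
    have e : (fun w : ℍ => F (δ • w)) ∘ ofComplex =
        (F ∘ ofComplex) ∘ fun z => (((mapGL ℝ δ) • ofComplex z : ℍ) : ℂ) := by
      funext z
      simp only [Function.comp_apply, ofComplex_apply]
      rfl
    rw [e]
    refine h3.congr_deriv ?_
    rw [ModularForm.SL_slash_apply, hdet, zpow_neg, Complex.ofReal_one, one_div, zpow_ofNat]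
    rfl
  let c : Gamma0 N → ℂ := fun γ =>
    F ((γ : SL(2, ℤ)) • UpperHalfPlane.I) - χ (dUnit N γ) • F UpperHalfPlane.I
  have hequiv : ∀ (γ : Gamma0 N) (τ : ℍ),
      F ((γ : SL(2, ℤ)) • τ) = c γ + χ (dUnit N γ) • F τ := by
    intro γ τ
    have hd : HeckeFinite.IsPrim (fun w : ℍ => F ((γ : SL(2, ℤ)) • w))
        (algebraMap O ℂ (χ (dUnit N γ)) • ⇑g) := fun w => hg γ ▸ hchain _ w
    have h := hd.sub_eq_sub (hF.const_smul _) τ UpperHalfPlane.I
    simp only [Pi.smul_apply, smul_eq_mul] at h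
    simp only [c, Algebra.smul_def]
    linear_combination h
  have hmem : c ∈ cocycles (gammaRep (scalarRep χ ℂ)) {negOne N} := by
    refine ⟨fun γ δ => ?_, fun k hk => ?_⟩
    · have h1 := hequiv (γ * δ) UpperHalfPlane.I
      rw [Subgroup.coe_mul, mul_smul, hequiv γ, hequiv δ, map_mul, map_mul] at h1
      rw [gammaRep_apply, scalarRep_apply]
      simp only [Algebra.smul_def, map_mul] at h1 ⊢
      linear_combination -h1
    · rw [Set.mem_singleton_iff] at hk
      subst hk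
      show F (((negOne N : Gamma0 N) : SL(2, ℤ)) • _) - _ = 0
      rw [dUnit_negOne, hχ1, one_smul, show ((negOne N : Gamma0 N) : SL(2, ℤ)) = -1 from rfl,
        ModularGroup.SL_neg_smul, one_smul, sub_self]
  refine ⟨toCoh _ ⟨c, hmem⟩, ⟨c, hmem⟩, F, g, rfl, hF, hequiv, fun δ => ?_, fun τ => ?_⟩
  · have hclδ : HeckeFinite.CuspLike (M : ℝ) ((⇑g) ∣[(2 : ℤ)] δ) := by
      refine ⟨by exact_mod_cast Nat.pos_of_ne_zero (NeZero.ne M), ?_, ?_,
        CuspFormClass.zero_at_infty_slash g δ⟩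
      · have hT : ModularGroup.T ^ (M : ℤ) ∈ Gamma M := by
          simpa using ModularGroup_T_pow_mem_Gamma (M : ℤ) (M : ℤ) dvd_rfl
        have hmem := Gamma_mem.mp ((Gamma_normal M).conj_mem _ hT δ)
        have h1 : δ * ModularGroup.T ^ (M : ℤ) * δ⁻¹ ∈ Gamma1 M :=
          (Gamma1_mem M _).mpr ⟨hmem.1, hmem.2.2.2, hmem.2.2.1⟩
        have h : ((⇑g) ∣[(2 : ℤ)] δ) ∣[(2 : ℤ)] (ModularGroup.T ^ (M : ℤ))
            = (⇑g) ∣[(2 : ℤ)] δ := by
          have e : δ * ModularGroup.T ^ (M : ℤ)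
              = (δ * ModularGroup.T ^ (M : ℤ) * δ⁻¹) * δ := by group
          rw [← SlashAction.slash_mul, e, SlashAction.slash_mul]
          congr 1
          exact SlashInvariantFormClass.slash_action_eq g _ (Subgroup.mem_map_of_mem _ h1)
        simpa using HeckeFinite.periodic_of_slash_T_zpow h
      · rw [ModularForm.SL_slash]
        exact (CuspFormClass.holo g).slash _ _
    have hd : HeckeFinite.IsPrim (fun w : ℍ => F (δ • w)) ((⇑g) ∣[(2 : ℤ)] δ) := hchain δ
    refine ⟨F (δ • UpperHalfPlane.I) - HeckeFinite.prim ((⇑g) ∣[(2 : ℤ)] δ) UpperHalfPlane.I, ?_⟩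
    have h := (tendsto_const_nhds (x := F (δ • UpperHalfPlane.I) -
      HeckeFinite.prim ((⇑g) ∣[(2 : ℤ)] δ) UpperHalfPlane.I) (f := atImInfty)).add
      hclδ.prim_spec.2.zero
    rw [add_zero] at h
    refine h.congr fun w => ?_
    linear_combination -(hd.sub_eq_sub hclδ.prim_spec.1 w UpperHalfPlane.I)
  · have := hasSum_qExpansion one_pos hcl.periodic hcl.holo hcl.bdd τ
    simpa [smul_eq_mul] using this

end Fermat.Agent.Row48.Periods

end
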