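import Fermat.Agent.Row48.EigenClass.Order
import Fermat.Agent.Row48.EigenClass.Primitive
import Fermat.Agent.Row48.Cover.Defs
import Fermat.Prelude.Def_FLTPrelim_Modularity
import Mathlib.NumberTheory.DirichletCharacter.Basic

/-!
# Eigen classes from weight two forms with character

A weight two cusp form on `Γ₁(M₀)` with an even character whose coefficients are integral at a place
over `ℓ`, `a₁` a unit, and an eigenform modulo the place at the primes not dividing `M₀`, gives an
eigen class of level `M₀²` over the residue field killed by the parabolic elements of the cover.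
-/

set_option autoImplicit false

noncomputable section

open CongruenceSubgroup MvPolynomial
open scoped MatrixGroups ModularForm

namespace Fermat.Agent.Row48.Periods

open HeckeModule

variable {M₀ : ℕ} [NeZero M₀] {ℓ : ℕ} {A : ValuationSubring ℂ}

/-- **Eigen classes from forms.** -/
theorem eigenClass_of_form (hℓ : ℓ.Prime) (hA : (ℓ : ℂ) ∈ A.nonunits)
    (g : CuspForm (Gamma1 M₀) 2) (ψ : DirichletCharacter ℂ M₀) (hψ : ψ (-1) = 1)
    (hg : ∀ γ : SL(2, ℤ), γ ∈ Gamma0 M₀ →
      (⇑g) ∣[(2 : ℤ)] γ = ψ ((γ 1 1 : ℤ) : ZMod M₀) • ⇑g)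
    (c : ℕ → A) (hc : ∀ n, (c n : ℂ) = ModularFormClass.qCoeff g n)
    (h1 : IsLocalRing.residue A (c 1) ≠ 0)
    (b : ℕ → A) (hb : ∀ p : ℕ, p.Prime → ¬ p ∣ M₀ → ∀ n : ℕ,
      A.valuation (ModularFormClass.qCoeff g (n * p) +
        (if p ∣ n then ψ (p : ZMod M₀) * (p * ModularFormClass.qCoeff g (n / p)) else 0) -
          (b p : ℂ) * ModularFormClass.qCoeff g n) < 1)
    (χ : (ZMod M₀)ˣ →* (IsLocalRing.ResidueField A)ˣ)
    (hχ : ∀ (u : (ZMod M₀)ˣ) (y : A), (y : ℂ) = ψ (u : ZMod M₀) →
      IsLocalRing.residue A y = (χ u : IsLocalRing.ResidueField A)) :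
    Cover.EigenClass M₀ χ fun p => IsLocalRing.residue A (b p) := by
  have : NeZero (Cover.lev M₀) := ⟨mul_ne_zero (NeZero.ne M₀) (NeZero.ne M₀)⟩
  have hdvd : M₀ ∣ Cover.lev M₀ := dvd_mul_right M₀ M₀
  obtain ⟨O, _, _, _, j, hj, hker, hS⟩ :=
    exists_dvr hℓ hA (S := Set.range fun u : (ZMod M₀)ˣ => ψ (u : ZMod M₀)) (Set.finite_range _)
      (by
        rintro _ ⟨u, rfl⟩
        refine IsIntegral.of_pow (n := Fintype.card (ZMod M₀)ˣ) Fintype.card_pos ?_
        rw [← map_pow, ← Units.val_pow_eq_pow_val, pow_card_eq_one, Units.val_one, map_one]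
        exact isIntegral_one)
  let : Algebra O ℂ := (A.subtype.comp j).toAlgebra
  have halg : ∀ r : O, algebraMap O ℂ r = (j r : ℂ) := fun r => rfl
  have : FaithfulSMul O ℂ := (faithfulSMul_iff_algebraMap_injective O ℂ).mpr
    (Subtype.val_injective.comp hj)
  have : Module.IsTorsionFree O ℂ := inferInstance
  choose y hy using fun u : (ZMod M₀)ˣ => hS _ (Set.mem_range_self u)
  let χ₀ : (ZMod M₀)ˣ →* O :=
    { toFun := y
      map_one' := hj (Subtype.ext (by rw [hy, Units.val_one, map_one, map_one]; rfl))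
      map_mul' := fun u v => hj (Subtype.ext (by
        rw [hy, Units.val_mul, map_mul, map_mul, ← hy u, ← hy v]; rfl)) }
  let χO : (ZMod (Cover.lev M₀))ˣ →* O := χ₀.comp (ZMod.unitsMap hdvd)
  have hχO : ∀ u, algebraMap O ℂ (χO u) = ψ ((ZMod.unitsMap hdvd u : (ZMod M₀)ˣ) : ZMod M₀) :=
    fun u => hy _
  let red : O →+* IsLocalRing.ResidueField A := (IsLocalRing.residue A).comp j
  let χ' : (ZMod (Cover.lev M₀))ˣ →* IsLocalRing.ResidueField A :=
    ((Units.coeHom _).comp χ).comp (ZMod.unitsMap hdvd)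
  have hred : ∀ u, red (χO u) = χ' u := fun u => hχ _ _ (hy _)
  have hneg : ZMod.unitsMap hdvd (-1) = -1 := Units.ext (by simp [ZMod.unitsMap_def])
  have hχO1 : χO (-1) = 1 := hj (Subtype.ext (by
    show (j (y _) : ℂ) = (j 1 : ℂ)
    rw [hy, hneg, Units.val_neg, Units.val_one, hψ, map_one]
    rfl))
  have hdU : ∀ γ : Gamma0 (Cover.lev M₀),
      ((ZMod.unitsMap hdvd (dUnit _ γ) : (ZMod M₀)ˣ) : ZMod M₀) =
        (((γ : SL(2, ℤ)) 1 1 : ℤ) : ZMod M₀) := fun γ => by
    rw [ZMod.unitsMap_def, Units.coe_map, MonoidHom.coe_coe, coe_dUnit, map_intCast]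
  have hg' : ∀ γ : Gamma0 (Cover.lev M₀), (⇑g) ∣[(2 : ℤ)] (γ : SL(2, ℤ)) =
      algebraMap O ℂ (χO (dUnit _ γ)) • ⇑g := fun γ => by
    rw [hχO, hdU]
    refine hg _ (Gamma0_mem.mpr ?_)
    rw [ZMod.intCast_zmod_eq_zero_iff_dvd]
    exact (Int.natCast_dvd_natCast.mpr hdvd).trans
      ((ZMod.intCast_zmod_eq_zero_iff_dvd _ _).mp (Gamma0_mem.mp γ.2))
  obtain ⟨u₀, hu₀⟩ := exists_represents g hχO1 hg'
  obtain ⟨c₀, hc₀⟩ := toCoh_surjective _ u₀
  let P₀ : Set (Gamma0 (Cover.lev M₀)) := {γ | (γ : SL(2, ℤ)) ∈ Cover.gammaH M₀ ∧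
    ((γ : SL(2, ℤ)) : Matrix (Fin 2) (Fin 2) ℤ).trace ^ 2 = 4}
  have hP₀ : ∀ γ ∈ P₀, χO (dUnit _ γ) = 1 := fun γ hγ => hj (Subtype.ext (by
    show (j (y _) : ℂ) = (j 1 : ℂ)
    rw [hy, hdU, map_one]
    rcases hγ.1.2 with h | h <;> rw [h]
    · exact map_one ψ
    · exact hψ))
  let S : Set ℕ := {n | n ∣ M₀}
  let val : AwayIndex S → IsLocalRing.ResidueField A :=
    fun i => IsLocalRing.residue A (b ((i : Nat.Primes) : ℕ))
  have key : ∀ Q : AwayPoly O S, ∃ z : ℕ → A,
      Represents χO (awayHom S _ Q u₀) (fun n => (z n : ℂ)) ∧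
      ∀ n, IsLocalRing.residue A (z n) = eval₂ red val Q * IsLocalRing.residue A (c n) := by
    intro Q
    induction Q using MvPolynomial.induction_on with
    | C r =>
      refine ⟨fun n => j r * c n, ?_, fun n => by rw [eval₂_C, map_mul]; rfl⟩
      have h := hu₀.smul r
      rw [← MvPolynomial.algebraMap_eq, AlgHom.commutes, Module.algebraMap_end_apply]
      convert h using 1
      funext n
      simp only [Pi.smul_apply, smul_eq_mul, halg]
      push_cast [hc]
      rfl
    | add P Q hP hQ =>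
      obtain ⟨z, hz, hz'⟩ := hP
      obtain ⟨w, hw, hw'⟩ := hQ
      refine ⟨z + w, ?_, fun n => ?_⟩
      · rw [map_add, LinearMap.add_apply]
        convert hz.add hw using 1
        funext n
        rfl
      · rw [Pi.add_apply, map_add, eval₂_add, hz', hw', add_mul]
    | mul_X P i hP =>
      obtain ⟨z, hz, hz'⟩ := hP
      have : Fact ((i : Nat.Primes) : ℕ).Prime := ⟨(i : Nat.Primes).2⟩
      set p : ℕ := ((i : Nat.Primes) : ℕ) with hp
      have hpM : ¬ p ∣ M₀ := i.2
      have hpP : p.Prime := (i : Nat.Primes).2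
      have hcop : p.Coprime (Cover.lev M₀) :=
        Nat.Coprime.mul_right (hpP.coprime_iff_not_dvd.mpr hpM)
          (hpP.coprime_iff_not_dvd.mpr hpM)
      set up := ZMod.unitOfCoprime p hcop with hup
      have hψp : ψ ((p : ℕ) : ZMod M₀) = algebraMap O ℂ (χO up) := by
        rw [hχO]
        refine congrArg ψ ?_
        rw [ZMod.unitsMap_def, Units.coe_map, MonoidHom.coe_coe, hup, ZMod.coe_unitOfCoprime,
          map_natCast]
      refine ⟨fun n =>
        z (n * p) + if p ∣ n then j (χO up) * (p * z (n / p)) else 0, ?_, fun n => ?_⟩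
      · rw [mul_comm P (X i), map_mul, Module.End.mul_apply, awayHom_X]
        have h := hz.hecke p hcop
        convert h using 1
        · rfl
        · funext n
          simp only [coeffHecke, ← hup, halg]
          split_ifs <;> push_cast <;> rfl
      · set e : A := c (n * p) + (if p ∣ n then j (χO up) * (p * c (n / p)) else 0) - b p * c n
          with he
        have he0 : IsLocalRing.residue A e = 0 := by
          rw [IsLocalRing.residue_eq_zero_iff, ValuationSubring.valuation_lt_one_iff]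
          refine lt_of_eq_of_lt (congrArg A.valuation ?_) (hb p hpP hpM n)
          simp only [he, ← hc, hψp, halg]
          split_ifs <;> push_cast <;> rfl
        rw [he, map_sub, map_add, map_mul, sub_eq_zero] at he0
        rw [eval₂_mul, eval₂_X, map_add, hz']
        split_ifs with hdiv
        · simp only [if_pos hdiv, map_mul, map_natCast] at he0
          simp only [map_mul, map_natCast, hz', val, ← hp]
          linear_combination eval₂ red val P * he0
        · simp only [if_neg hdiv, map_zero, add_zero] at he0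
          simp only [map_zero, val, ← hp]
          linear_combination eval₂ red val P * he0
  obtain ⟨d, hd0, hdP, hdT⟩ := exists_eigen_of_class red hker χO hχO1 χ' hred S P₀ hP₀ c₀ val
    (fun Q γ hγ => by
      obtain ⟨z, hz, -⟩ := key Q
      rw [hc₀]
      exact hz.evalAt_eq_zero γ (hP₀ γ hγ) hγ.2)
    (fun Q hQ => by
      obtain ⟨z, hz, hz'⟩ := key Q
      rw [hc₀] at hQ
      rw [hQ] at hz
      have h := hz' 1
      rw [show z 1 = 0 from Subtype.ext (hz.eq_zero 1), map_zero] at h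
      exact (mul_eq_zero.mp h.symm).resolve_right h1)
  refine ⟨d, hd0, fun γ hγ ht => hdP γ ⟨hγ, ht⟩, fun p hp hpM => ?_⟩
  exact hdT ⟨⟨p, hp.out⟩, hpM⟩

end Fermat.Agent.Row48.Periods

end
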