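import Mathlib.NumberTheory.NumberField.Basic
import Mathlib.RingTheory.DedekindDomain.AdicValuation
import Mathlib.RingTheory.DedekindDomain.Dvr
import Mathlib.RingTheory.Valuation.ValuationSubring
import Mathlib.FieldTheory.IntermediateField.Adjoin.Basic
import Mathlib.Analysis.Complex.Basic
import Fermat.Agent.Row48.Family

/-!
# A discrete valuation ring inside a valuation ring of `ℂ`
-/

set_option autoImplicit false

noncomputable section

open IsDedekindDomain NumberField

namespace Fermat.Agent.Row48.Periods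

/-- Finitely many integral elements of a valuation ring over `ℓ` lie in a discrete valuation ring
inside it, whose maximal ideal is the kernel of reduction. -/
theorem exists_dvr {A : ValuationSubring ℂ} {ℓ : ℕ} (hℓ : ℓ.Prime) (hA : (ℓ : ℂ) ∈ A.nonunits)
    {S : Set ℂ} (hS : S.Finite) (hint : ∀ x ∈ S, IsIntegral ℤ x) :
    ∃ (O : Type) (_ : CommRing O) (_ : IsDomain O) (_ : IsDiscreteValuationRing O) (j : O →+* A),
      Function.Injective j ∧
      RingHom.ker ((IsLocalRing.residue A).comp j) = IsLocalRing.maximalIdeal O ∧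
      ∀ x ∈ S, ∃ y, (j y : ℂ) = x := by
  have : Finite S := hS.to_subtype
  let F := IntermediateField.adjoin ℚ S
  have : FiniteDimensional ℚ F :=
    IntermediateField.finiteDimensional_adjoin fun x hx => (hint x hx).tower_top
  have : NumberField F := ⟨⟩
  let W : ValuationSubring F := A.comap F.val.toRingHom
  have hR : ∀ r : 𝓞 F, ((r : F) : ℂ) ∈ A := fun r =>
    mem_of_isIntegral A ((RingOfIntegers.isIntegral_coe r).map F.val.toRingHom.toIntAlgHom)
  let i : 𝓞 F →+* A := (F.val.toRingHom.comp (algebraMap (𝓞 F) F)).codRestrict A.toSubring hR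
  let P : Ideal (𝓞 F) := (IsLocalRing.maximalIdeal A).comap i
  have hℓP : (ℓ : 𝓞 F) ∈ P := by
    show i (ℓ : 𝓞 F) ∈ IsLocalRing.maximalIdeal A
    rw [map_natCast, ValuationSubring.valuation_lt_one_iff]
    simpa using show A.valuation (ℓ : ℂ) < 1 from hA
  have hP : P ≠ ⊥ := fun h => by
    rw [h, Ideal.mem_bot, Nat.cast_eq_zero] at hℓP
    exact hℓ.ne_zero hℓP
  let v : HeightOneSpectrum (𝓞 F) := ⟨P, inferInstance, hP⟩
  let V : ValuationSubring F := HeightOneSpectrum.valuationSubringAtPrime F v
  have : IsLocalization.AtPrime V v.asIdeal :=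
    Localization.subalgebra.isLocalization_ofField F v.asIdeal.primeCompl _
  have : IsDiscreteValuationRing V :=
    IsLocalization.AtPrime.isDiscreteValuationRing_of_dedekind_domain (A := 𝓞 F)
      (P := v.asIdeal) hP V
  have hVA : ∀ x : V, ((x : F) : ℂ) ∈ A := by
    intro x
    obtain ⟨a, s, hs, hx⟩ := x.2
    have hu : IsUnit (i s) := by
      by_contra h
      exact hs ((IsLocalRing.mem_maximalIdeal _).mpr h)
    have hval : A.valuation (((s : F) : ℂ)) = 1 := (A.valuation_eq_one_iff (i s)).mp hu
    rw [← A.valuation_le_one_iff, hx]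
    simp only [IntermediateField.coe_mul, IntermediateField.coe_inv, map_mul, map_inv₀, hval,
      inv_one, mul_one]
    exact (A.valuation_le_one_iff _).mpr (hR a)
  let j : V →+* A := (F.val.toRingHom.comp V.subtype).codRestrict A.toSubring hVA
  refine ⟨V, inferInstance, inferInstance, inferInstance, j, fun x y h => ?_, ?_, fun x hx => ?_⟩
  · exact Subtype.ext (Subtype.ext (congrArg (fun z : A => (z : ℂ)) h))
  · have hprime : (RingHom.ker ((IsLocalRing.residue A).comp j)).IsPrime := RingHom.ker_isPrime _
    refine IsLocalRing.eq_maximalIdeal (hprime.isMaximal fun hbot => ?_)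
    have hmem : (ℓ : V) ∈ RingHom.ker ((IsLocalRing.residue A).comp j) := by
      rw [RingHom.mem_ker, RingHom.comp_apply, map_natCast j, IsLocalRing.residue_eq_zero_iff,
        ValuationSubring.valuation_lt_one_iff]
      simpa using show A.valuation (ℓ : ℂ) < 1 from hA
    rw [hbot, Ideal.mem_bot, Nat.cast_eq_zero] at hmem
    exact hℓ.ne_zero hmem
  · have hxF : x ∈ F := IntermediateField.subset_adjoin ℚ S hx
    have hxi : IsIntegral ℤ (⟨x, hxF⟩ : F) := (isIntegral_algHom_iff
      (F.val.restrictScalars ℤ) Subtype.val_injective).mp (hint x hx)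
    refine ⟨⟨algebraMap (𝓞 F) F ⟨_, hxi⟩, ?_⟩, rfl⟩
    exact (algebraMap (𝓞 F) V ⟨_, hxi⟩).2

end Fermat.Agent.Row48.Periods

end
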